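/-
S14 / K2 (THAINE), second seat (helper55).  Abstract local lemmas in a Dedekind domain.

* `pow_not_mem_pow_succ`: `π ∈ P \ P^2` implies `π^r ∉ P^(r+1)`.
* `tame_character`: the tame-character lemma: if `τ` is a ring automorphism acting trivially
  modulo `P`, `τ π = π * w` with `w ≡ s`, `τ γ = ε * γ` and `γ ∈ P^r \ P^(r+1)`, then
  `ε ≡ s^r mod P`.
-/
import Mathlib

set_option autoImplicit false

namespace Fermat.Agent.S14.Thaine55

open Ideal

variable {O : Type*} [CommRing O] [IsDedekindDomain O]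

/-- If `π ∈ P \ P^2` then `π^r ∉ P^(r+1)`. -/
theorem pow_not_mem_pow_succ {P : Ideal O} [hP : P.IsPrime] (hP0 : P ≠ ⊥) {π : O}
    (hπ : π ∈ P) (hπ2 : π ∉ P ^ 2) (r : ℕ) : π ^ r ∉ P ^ (r + 1) := by
  induction r with
  | zero =>
    simp only [pow_zero, zero_add, pow_one]
    exact fun h => hP.ne_top ((Ideal.eq_top_iff_one P).mpr h)
  | succ r ih =>
    intro h
    have hprime : Prime P := Ideal.prime_of_isPrime hP0 hP
    have h1 : P ^ (r + 1 + 1) ∣ Ideal.span {π ^ r} * Ideal.span {π} := by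
      rw [Ideal.span_singleton_mul_span_singleton, ← pow_succ, Ideal.dvd_iff_le,
        Ideal.span_singleton_le_iff_mem]
      exact h
    have h2 : ¬ P ^ (r + 1) ∣ Ideal.span {π ^ r} := by
      rw [Ideal.dvd_iff_le, Ideal.span_singleton_le_iff_mem]; exact ih
    have h3 : ¬ P ^ (1 + 1) ∣ Ideal.span {π} := by
      rw [Ideal.dvd_iff_le, Ideal.span_singleton_le_iff_mem]; exact hπ2
    have h4 : P ^ r ∣ Ideal.span {π ^ r} := by
      rw [Ideal.dvd_iff_le, Ideal.span_singleton_le_iff_mem]; exact Ideal.pow_mem_pow hπ r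
    have h5 : P ^ 1 ∣ Ideal.span {π} := by
      rw [pow_one, Ideal.dvd_iff_le, Ideal.span_singleton_le_iff_mem]; exact hπ
    rcases succ_dvd_or_succ_dvd_of_succ_sum_dvd_mul hprime h4 h5 h1 with h6 | h6
    · exact h2 h6
    · exact h3 h6

omit [IsDedekindDomain O] in
/-- A ring automorphism acting trivially modulo `P` preserves the powers of `P`. -/
theorem map_mem_pow_of_sub_mem {P : Ideal O} (τ : O ≃+* O) (hτ : ∀ x, τ x - x ∈ P)
    (n : ℕ) {x : O} (hx : x ∈ P ^ n) : τ x ∈ P ^ n := by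
  have hP : P.map (τ : O →+* O) ≤ P := by
    rw [Ideal.map_le_iff_le_comap]
    intro y hy
    rw [Ideal.mem_comap]
    have := hτ y
    have h2 : τ y = (τ y - y) + y := by ring
    show τ y ∈ P
    rw [h2]
    exact P.add_mem this hy
  have h1 : (P ^ n).map (τ : O →+* O) ≤ P ^ n := by
    rw [Ideal.map_pow]
    exact Ideal.pow_right_mono hP n
  exact h1 (Ideal.mem_map_of_mem _ hx)

/-- **Tame character lemma.** -/
theorem tame_character {P : Ideal O} [hP : P.IsPrime] (hP0 : P ≠ ⊥)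
    (τ : O ≃+* O) (hτ : ∀ x, τ x - x ∈ P)
    {π w : O} (hπ : π ∈ P) (hπ2 : π ∉ P ^ 2) (hw : τ π = π * w) {s : O} (hs : w - s ∈ P)
    {γ ε : O} (hγ : τ γ = ε * γ) {r : ℕ} (hr : γ ∈ P ^ r) (hr' : γ ∉ P ^ (r + 1)) :
    ε - s ^ r ∈ P := by
  have hπr : π ^ r ∈ P ^ r := Ideal.pow_mem_pow hπ r
  have hπr' : π ^ r ∉ P ^ (r + 1) := pow_not_mem_pow_succ hP0 hπ hπ2 r
  obtain ⟨d, e, he, hde⟩ := Ideal.exists_mul_add_mem_pow_succ hP0 (π ^ r) γ hπr hπr' hr
  -- d ∉ P
  have hd : d ∉ P := by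
    intro hd
    apply hr'
    rw [← hde]
    refine (P ^ (r + 1)).add_mem ?_ he
    rw [pow_succ]
    exact Ideal.mul_mem_mul hπr hd
  have hτe : τ e ∈ P ^ (r + 1) := map_mem_pow_of_sub_mem τ hτ (r + 1) he
  -- τ γ = π^r * w^r * τ d + τ e
  have h1 : τ γ = π ^ r * (w ^ r * τ d) + τ e := by
    rw [← hde, map_add, map_mul, map_pow, hw, mul_pow]; ring
  -- ε γ = π^r * (ε d) + ε e
  have h2 : ε * γ = π ^ r * (ε * d) + ε * e := by
    rw [← hde]; ring
  have h3 : π ^ r * (w ^ r * τ d - ε * d) ∈ P ^ (r + 1) := by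
    have : π ^ r * (w ^ r * τ d - ε * d) = ε * e - τ e := by
      have := h1.symm.trans (hγ.trans h2)
      linear_combination this
    rw [this]
    exact (P ^ (r + 1)).sub_mem (Ideal.mul_mem_left _ _ he) hτe
  have h4 : w ^ r * τ d - ε * d ∈ P := Ideal.mem_prime_of_mul_mem_pow hP0 hπr' h3
  -- w^r ≡ s^r, τ d ≡ d
  have h5 : w ^ r - s ^ r ∈ P := by
    have : w - s ∣ w ^ r - s ^ r := sub_dvd_pow_sub_pow w s r
    obtain ⟨c, hc⟩ := this
    rw [hc]
    exact Ideal.mul_mem_right _ _ hs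
  have h6 : (s ^ r - ε) * d ∈ P := by
    have : (s ^ r - ε) * d = (w ^ r * τ d - ε * d) - (w ^ r - s ^ r) * τ d - s ^ r * (τ d - d) := by
      ring
    rw [this]
    exact P.sub_mem (P.sub_mem h4 (Ideal.mul_mem_right _ _ h5)) (Ideal.mul_mem_left _ _ (hτ d))
  rcases hP.mem_or_mem h6 with h7 | h7
  · have : ε - s ^ r = -(s ^ r - ε) := by ring
    rw [this]; exact P.neg_mem h7
  · exact absurd h7 hd

/-- **Tame character lemma, Hilbert-90 direction** (`ε * τ γ = γ`, the shape produced by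
`groupCohomology.exists_mul_galRestrict_of_norm_eq_one`): then `ε * s^r ≡ 1 mod P`. -/
theorem tame_character' {P : Ideal O} [hP : P.IsPrime] (hP0 : P ≠ ⊥)
    (τ : O ≃+* O) (hτ : ∀ x, τ x - x ∈ P)
    {π w : O} (hπ : π ∈ P) (hπ2 : π ∉ P ^ 2) (hw : τ π = π * w) {s : O} (hs : w - s ∈ P)
    {γ ε : O} (hγ : ε * τ γ = γ) {r : ℕ} (hr : γ ∈ P ^ r) (hr' : γ ∉ P ^ (r + 1)) :
    ε * s ^ r - 1 ∈ P := by
  have hπr : π ^ r ∈ P ^ r := Ideal.pow_mem_pow hπ r
  have hπr' : π ^ r ∉ P ^ (r + 1) := pow_not_mem_pow_succ hP0 hπ hπ2 r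
  obtain ⟨d, e, he, hde⟩ := Ideal.exists_mul_add_mem_pow_succ hP0 (π ^ r) γ hπr hπr' hr
  have hd : d ∉ P := by
    intro hd
    apply hr'
    rw [← hde]
    refine (P ^ (r + 1)).add_mem ?_ he
    rw [pow_succ]
    exact Ideal.mul_mem_mul hπr hd
  have hτe : τ e ∈ P ^ (r + 1) := map_mem_pow_of_sub_mem τ hτ (r + 1) he
  have h1 : τ γ = π ^ r * (w ^ r * τ d) + τ e := by
    rw [← hde, map_add, map_mul, map_pow, hw, mul_pow]; ring
  have h3 : π ^ r * (ε * w ^ r * τ d - d) ∈ P ^ (r + 1) := by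
    have : π ^ r * (ε * w ^ r * τ d - d) = e - ε * τ e := by
      have h2 : ε * (π ^ r * (w ^ r * τ d) + τ e) = π ^ r * d + e := by
        rw [← h1, hγ, hde]
      linear_combination h2
    rw [this]
    exact (P ^ (r + 1)).sub_mem he (Ideal.mul_mem_left _ _ hτe)
  have h4 : ε * w ^ r * τ d - d ∈ P := Ideal.mem_prime_of_mul_mem_pow hP0 hπr' h3
  have h5 : w ^ r - s ^ r ∈ P := by
    obtain ⟨c, hc⟩ := sub_dvd_pow_sub_pow w s r
    rw [hc]
    exact Ideal.mul_mem_right _ _ hs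
  have h6 : (ε * s ^ r - 1) * d ∈ P := by
    have : (ε * s ^ r - 1) * d =
        (ε * w ^ r * τ d - d) - ε * (w ^ r - s ^ r) * τ d - ε * s ^ r * (τ d - d) := by
      ring
    rw [this]
    exact P.sub_mem (P.sub_mem h4 (Ideal.mul_mem_right _ _ (Ideal.mul_mem_left _ _ h5)))
      (Ideal.mul_mem_left _ _ (hτ d))
  rcases hP.mem_or_mem h6 with h7 | h7
  · exact h7
  · exact absurd h7 hd

/-- Existence of the exponent: a nonzero element of a Dedekind domain lies in `P^r \ P^(r+1)`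
for a unique `r` (here: existence). -/
theorem exists_mem_pow_not_mem_pow_succ {P : Ideal O} [hP : P.IsPrime] (hP0 : P ≠ ⊥)
    {γ : O} (hγ : γ ≠ 0) : ∃ r : ℕ, γ ∈ P ^ r ∧ γ ∉ P ^ (r + 1) := by
  have hprime : Prime P := Ideal.prime_of_isPrime hP0 hP
  have hI : Ideal.span {γ} ≠ 0 := by
    rw [Ideal.zero_eq_bot, Ne, Ideal.span_singleton_eq_bot]; exact hγ
  have hfin : FiniteMultiplicity P (Ideal.span {γ}) :=
    FiniteMultiplicity.of_prime_left hprime hI
  refine ⟨multiplicity P (Ideal.span {γ}), ?_, ?_⟩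
  · have := pow_multiplicity_dvd P (Ideal.span {γ})
    rwa [Ideal.dvd_iff_le, Ideal.span_singleton_le_iff_mem] at this
  · have := hfin.not_pow_dvd_of_multiplicity_lt (Nat.lt_succ_self _)
    rwa [Ideal.dvd_iff_le, Ideal.span_singleton_le_iff_mem] at this

end Fermat.Agent.S14.Thaine55
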